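import Fermat.Agent.TwoAdic.LocalTwo.Kernel
import Fermat.Agent.TwoAdic.Galois.Interface
import Fermat.Agent.EC.Reduction.Basic

/-!
# The properties at two of modules with a Galois order and unipotent inertia

The classes congruent to the origin form an inertia stable subgroup containing every `σ x - x`; it
is of multiplicative type, and the classes are fixed by the peu ramifié kernel.
-/

set_option autoImplicit false
set_option linter.style.haveILetI false

noncomputable section

namespace Fermat.Agent.TwoAdic.LocalTwo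

open Fermat.Agent Fermat.Agent.Arith Fermat.Agent.FiniteFlat
open scoped Pointwise

variable {A : ValuationSubring QBar} {M : Type} [AddCommGroup M] [DistribMulAction GQ M]

theorem nonunits_sum {ι : Type*} (s : Finset ι) {g : ι → QBar} (h : ∀ i ∈ s, g i ∈ A.nonunits) :
    (∑ i ∈ s, g i) ∈ A.nonunits :=
  A.mem_nonunits_iff.mpr (A.valuation.map_sum_lt one_ne_zero fun i hi => A.mem_nonunits_iff.mp (h i hi))

theorem nonunits_neg' {x : QBar} (h : x ∈ A.nonunits) : -x ∈ A.nonunits := by
  rw [A.mem_nonunits_iff, Valuation.map_neg]; exact A.mem_nonunits_iff.mp h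

theorem mul_sub_mul_mem (a b a' b' : QBar) (ha : a ∈ A) (hb' : b' ∈ A)
    (h1 : a - a' ∈ A.nonunits) (h2 : b - b' ∈ A.nonunits) : a * b - a' * b' ∈ A.nonunits := by
  rw [show a * b - a' * b' = a * (b - b') + (a - a') * b' by ring, A.mem_nonunits_iff]
  rw [A.mem_nonunits_iff] at h1 h2
  refine Valuation.map_add_lt _ ?_ ?_ <;> rw [map_mul]
  · exact mul_lt_one_of_nonneg_of_lt_one_right ((A.valuation_le_one_iff _).mpr ha) zero_le h2
  · exact mul_lt_one_of_nonneg_of_lt_one_left zero_le h1 ((A.valuation_le_one_iff _).mpr hb')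

/-- The classes congruent to the origin. -/
def congrClasses (hA : A.LiesOverPrime 2) (O : GalOrder 2 M) : AddSubgroup M where
  carrier := {x | ∀ f ∈ O.H, f x - f 0 ∈ A.nonunits}
  zero_mem' := fun f _ => by
    rw [sub_self, A.mem_nonunits_iff, map_zero]; exact zero_lt_one
  add_mem' := fun {x y} hx hy f hf => by
    obtain ⟨n, a, b, ha, hb, h⟩ := O.comul f hf
    have e := h 0 0
    rw [add_zero] at e
    rw [h x y, e, ← Finset.sum_sub_distrib]
    exact nonunits_sum _ fun i _ => mul_sub_mul_mem _ _ _ _ (apply_mem_two hA O (ha i) x)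
      (apply_mem_two hA O (hb i) 0) (hx _ (ha i)) (hy _ (hb i))
  neg_mem' := fun {x} hx f hf => by
    simpa using hx _ (O.neg f hf)

theorem smul_sub_mem_congrClasses (hA : A.LiesOverPrime 2) (O : GalOrder 2 M) {σ : GQ}
    (hσ : σ ∈ A.inertiaSubgroupIn ℚ) (x : M) : σ • x - x ∈ congrClasses hA O := by
  intro f hf
  obtain ⟨n, a, b, ha, hb, h⟩ := O.comul f hf
  have e := h x (-x)
  rw [add_neg_cancel] at e
  rw [sub_eq_add_neg (σ • x) x, h, e, ← Finset.sum_sub_distrib]
  refine nonunits_sum _ fun i _ => ?_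
  rw [O.equivariant _ (ha i), ← sub_mul, A.mem_nonunits_iff, map_mul]
  exact mul_lt_one_of_nonneg_of_lt_one_left zero_le
    (A.mem_nonunits_iff.mp ((mem_inertia_iff_forall_mem.mp hσ).2 _ (apply_mem_two hA O (ha i) x)))
    ((A.valuation_le_one_iff _).mpr (apply_mem_two hA O (hb i) _))

theorem smul_mem_congrClasses (hA : A.LiesOverPrime 2) (O : GalOrder 2 M) {σ : GQ}
    (hσ : σ ∈ A.inertiaSubgroupIn ℚ) {x : M} (hx : x ∈ congrClasses hA O) :
    σ • x ∈ congrClasses hA O := by
  have := (congrClasses hA O).add_mem (smul_sub_mem_congrClasses hA O hσ x) hx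
  rwa [sub_add_cancel] at this

theorem connPart_congrClasses (hA : A.LiesOverPrime 2) (O : GalOrder 2 M) {n : ℕ}
    (h2 : ∀ x : M, (2 ^ n) • x = 0)
    (hunip : ∀ τ ∈ A.inertiaSubgroupIn ℚ, ∃ j : ℕ, ∀ x : M, τ ^ (2 ^ j) • x = x) :
    ConnPart A O (congrClasses hA O) n where
  killed y _ := h2 y
  stable _ hσ _ hy := smul_mem_congrClasses hA O hσ hy
  unip σ hσ := (hunip σ hσ).imp fun _ hj y _ => hj y
  congr f hf _ hy := hy f hf

theorem ordinaryLineProperty : TwoAdic.OrdinaryLineProperty := by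
  intro M _ _ _ k hk ⟨O⟩ A hA hunip σ hσ τ hτ c hc x
  haveI := Fintype.ofFinite M
  exact inertia_smul_eq hA O (connPart_congrClasses hA O hk hunip) hτ hc
    (smul_sub_mem_congrClasses hA O hσ x)

theorem peuProperty : TwoAdic.PeuProperty := by
  intro M _ _ _ h2 ⟨O⟩ A hA hunip σ hσ x
  haveI := Fintype.ofFinite M
  refine smul_eq_self_of_fixes hA O (connPart_congrClasses hA O (n := 1) (by simpa using h2) hunip)
    (fun τ hτ => smul_sub_mem_congrClasses hA O hτ x) hσ.1 fun z hz hfix => hσ.2 z hz ?_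
  simpa using hfix

end Fermat.Agent.TwoAdic.LocalTwo
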