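import Fermat.Agent.FiniteFlat.GalOrder
import Fermat.Agent.FiniteFlat.Descent
import Fermat.Agent.EC.Multiplicative.Galois
import Fermat.Agent.OrdinaryAtP.Fixed
import Mathlib.GroupTheory.PGroup
import Mathlib.Algebra.Group.AddChar

/-!
# The integral on a connected finite module with unipotent inertia

On a subgroup `Y` of a module with a Galois order at `2`, stable under inertia, on which inertia is
unipotent and the functions of the order are congruent to their value at the origin, the average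
over `Y` of a function of the order is integral.
-/

set_option autoImplicit false
set_option linter.style.haveILetI false
set_option linter.unusedSectionVars false

noncomputable section

namespace Fermat.Agent.TwoAdic.LocalTwo

open Fermat.Agent Fermat.Agent.Arith Fermat.Agent.FiniteFlat
open scoped Pointwise

variable {A : ValuationSubring QBar}

theorem zl_mem_of_lies (hA : A.LiesOverPrime 2) (c : Zl 2) : ((c : ℚ) : QBar) ∈ A := by
  rw [ratCast_mem_iff hA Nat.prime_two]
  intro h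
  have hc : ((c : ℚ)).den.Coprime 2 := c.2
  exact (Nat.Prime.coprime_iff_not_dvd Nat.prime_two).mp hc.symm h

theorem valuation_two_lt_one (hA : A.LiesOverPrime 2) : A.valuation (2 : QBar) < 1 := by
  rw [← A.mem_nonunits_iff]
  have : ((2 : ℕ) : QBar) ∈ A.nonunits := (natCast_mem_nonunits_iff hA Nat.prime_two 2).mpr dvd_rfl
  exact_mod_cast this

/-- A nonzero nonunit fixed by inertia is divisible by two. -/
theorem valuation_le_two_of_fixed (hA : A.LiesOverPrime 2) {x : QBar} (hx1 : A.valuation x < 1)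
    (hfix : ∀ τ ∈ A.inertiaSubgroupIn ℚ, τ x = x) : A.valuation x ≤ A.valuation (2 : QBar) := by
  rcases eq_or_ne x 0 with rfl | hx
  · rw [map_zero]; exact zero_le
  obtain ⟨n, u, hu⟩ := OrdinaryAtP.exists_pow_mul_unit hA Nat.prime_two
    (w := ⟨x, (A.valuation_le_one_iff _).mp hx1.le, hfix⟩) (fun h => hx (congrArg Subtype.val h))
  have hu1 : A.valuation ((u : OrdinaryAtP.fixRing A) : QBar) ≤ 1 :=
    (A.valuation_le_one_iff _).mpr (u : OrdinaryAtP.fixRing A).2.1
  have hui : A.valuation (((u⁻¹ : (OrdinaryAtP.fixRing A)ˣ) : OrdinaryAtP.fixRing A) : QBar) ≤ 1 :=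
    (A.valuation_le_one_iff _).mpr ((u⁻¹ : (OrdinaryAtP.fixRing A)ˣ) : OrdinaryAtP.fixRing A).2.1
  have e : A.valuation x = A.valuation (2 : QBar) ^ n *
      A.valuation ((u : OrdinaryAtP.fixRing A) : QBar) := by
    have := congrArg (fun w : OrdinaryAtP.fixRing A => A.valuation (w : QBar)) hu
    simp only [Subring.coe_mul, SubmonoidClass.coe_pow, map_mul, map_pow, Subring.coe_natCast] at this
    rw [this]; norm_num
  have hn : n ≠ 0 := by
    rintro rfl
    rw [pow_zero, one_mul] at e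
    have h := congrArg (fun w : OrdinaryAtP.fixRing A => A.valuation (w : QBar)) u.mul_inv
    simp only [Subring.coe_mul, map_mul, Subring.coe_one, map_one, ← e] at h
    exact absurd h (ne_of_lt (lt_of_le_of_lt (mul_le_of_le_one_right' hui) hx1))
  rw [e]
  calc A.valuation (2 : QBar) ^ n * _ ≤ A.valuation (2 : QBar) ^ n * 1 := mul_le_mul_right hu1 _
    _ ≤ A.valuation (2 : QBar) ^ 1 := by
      rw [mul_one]
      exact pow_le_pow_right_of_le_one' (valuation_two_lt_one hA).le (Nat.one_le_iff_ne_zero.mpr hn)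
    _ = _ := pow_one _

/-- Some power of a nonunit is divisible by two. -/
theorem exists_pow_le_two (hA : A.LiesOverPrime 2) {x : QBar} (hx : A.valuation x < 1) :
    ∃ e : ℕ, 0 < e ∧ A.valuation x ^ e ≤ A.valuation (2 : QBar) := by
  classical
  set O : Finset QBar := ((minpoly ℚ x).rootSet QBar).toFinset.filter
    (fun z => ∃ σ ∈ A.inertiaSubgroupIn ℚ, σ x = z)
  have hO : ∀ z, z ∈ O ↔ ∃ σ ∈ A.inertiaSubgroupIn ℚ, σ x = z := fun z => by
    simp only [O, Finset.mem_filter, Set.mem_toFinset, and_iff_right_iff_imp]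
    rintro ⟨σ, -, rfl⟩
    rw [Polynomial.mem_rootSet_of_ne (minpoly.ne_zero (Algebra.IsIntegral.isIntegral x))]
    rw [← AlgEquiv.coe_algHom, Polynomial.aeval_algHom_apply, minpoly.aeval, map_zero]
  have hOv : ∀ z ∈ O, A.valuation z = A.valuation x := fun z hz => by
    obtain ⟨σ, hσ, rfl⟩ := (hO z).mp hz
    exact EC.Multiplicative.valuation_map_eq (mem_inertia_iff_forall_mem.mp hσ).1 x
  have hcard : 0 < O.card := Finset.card_pos.mpr ⟨x, (hO x).mpr ⟨1, one_mem _, rfl⟩⟩
  refine ⟨O.card, hcard, ?_⟩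
  have hprod : A.valuation (∏ z ∈ O, z) = A.valuation x ^ O.card := by
    rw [map_prod, Finset.prod_congr rfl hOv, Finset.prod_const]
  rw [← hprod]
  refine valuation_le_two_of_fixed hA (by rw [hprod]; exact pow_lt_one₀ zero_le hx hcard.ne')
    fun τ hτ => ?_
  rw [map_prod]
  refine Finset.prod_nbij τ (fun z hz => ?_) (fun a _ b _ h => τ.injective h) ?_ fun z _ => rfl
  · obtain ⟨σ, hσ, rfl⟩ := (hO z).mp hz
    exact (hO _).mpr ⟨τ * σ, mul_mem hτ hσ, rfl⟩
  · intro z hz
    obtain ⟨σ, hσ, rfl⟩ := (hO z).mp hz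
    exact ⟨(τ⁻¹ * σ) x, (hO _).mpr ⟨τ⁻¹ * σ, mul_mem (inv_mem hτ) hσ, rfl⟩,
      by rw [AlgEquiv.mul_apply]; exact τ.apply_symm_apply _⟩

variable {M : Type} [AddCommGroup M] [DistribMulAction GQ M]

theorem apply_mem_two (hA : A.LiesOverPrime 2) (O : GalOrder 2 M) {f : M → QBar} (hf : f ∈ O.H)
    (x : M) : f x ∈ A := by
  have h1 : IsIntegral (Zl 2) (⟨f, hf⟩ : O.H) := Algebra.IsIntegral.isIntegral _
  obtain ⟨P, hP, hPx⟩ := h1.map ((Pi.evalAlgHom (Zl 2) (fun _ : M => QBar) x).comp O.H.val)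
  let φ : Zl 2 →+* A := (algebraMap (Zl 2) QBar).codRestrict A.toSubring fun c => by
    rw [IsScalarTower.algebraMap_apply (Zl 2) ℚ QBar, eq_ratCast]
    exact zl_mem_of_lies hA c
  have hi : IsIntegral A (f x) := ⟨P.map φ, hP.map φ, by
    rw [Polynomial.eval₂_map]
    exact hPx⟩
  obtain ⟨y, hy⟩ := (IsIntegrallyClosed.isIntegral_iff (R := A) (K := QBar)).mp hi
  exact hy ▸ y.2

/-- A nontrivial step: a fixed class of order two in the quotient of stable subgroups. -/
theorem exists_step (I : Subgroup GQ) {Y Y0 : AddSubgroup M} [Finite M] (hle : Y0 < Y) {n : ℕ}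
    (h2 : ∀ y ∈ Y, (2 ^ n) • y = 0) (hst : ∀ σ ∈ I, ∀ y ∈ Y, σ • y ∈ Y)
    (hst0 : ∀ σ ∈ I, ∀ y ∈ Y0, σ • y ∈ Y0)
    (hunip : ∀ σ ∈ I, ∃ k : ℕ, ∀ y ∈ Y, σ ^ (2 ^ k) • y = y) :
    ∃ z ∈ Y, z ∉ Y0 ∧ 2 • z ∈ Y0 ∧ ∀ σ ∈ I, σ • z - z ∈ Y0 := by
  classical
  let Q := Y ⧸ Y0.addSubgroupOf Y
  let T : I →* AddMonoid.End Y :=
    { toFun := fun σ =>
        { toFun := fun y => ⟨(σ : GQ) • (y : M), hst σ σ.2 y y.2⟩
          map_zero' := Subtype.ext (smul_zero _)
          map_add' := fun a b => Subtype.ext (smul_add _ _ _) }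
      map_one' := AddMonoidHom.ext fun y => Subtype.ext (one_smul GQ (y : M))
      map_mul' := fun σ τ => AddMonoidHom.ext fun y => Subtype.ext (mul_smul _ _ _) }
  let q : I → Q →+ Q := fun σ => QuotientAddGroup.map _ _ (T σ) fun y hy => hst0 σ σ.2 _ hy
  have hqmk : ∀ (σ : I) (y : Y), q σ (y : Q) = ((T σ y : Y) : Q) := fun σ y => rfl
  letI act : MulAction I Q :=
    { smul := fun σ w => q σ w
      one_smul := fun w => by
        induction w using QuotientAddGroup.induction_on with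
        | _ y => exact congrArg _ (DFunLike.congr_fun (map_one T) y)
      mul_smul := fun σ τ w => by
        induction w using QuotientAddGroup.induction_on with
        | _ y => exact congrArg _ (DFunLike.congr_fun (map_mul T σ τ) y) }
  let P := (MulAction.toPermHom I Q).range
  have hP : IsPGroup 2 P := by
    rintro ⟨g, σ, rfl⟩
    obtain ⟨k, hk⟩ := hunip σ σ.2
    refine ⟨k, Subtype.ext ?_⟩
    rw [SubmonoidClass.coe_pow, ← map_pow]
    ext w
    induction w using QuotientAddGroup.induction_on with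
    | _ y =>
      refine congrArg _ (Subtype.ext ?_)
      show ((σ ^ 2 ^ k : I) : GQ) • (y : M) = y
      rw [SubmonoidClass.coe_pow]
      exact hk y y.2
  have hQ2 : ∀ w : Q, (2 ^ n) • w = 0 := fun w => by
    induction w using QuotientAddGroup.induction_on with
    | _ y =>
      rw [← QuotientAddGroup.mk_nsmul, show (2 ^ n) • y = 0 from Subtype.ext (h2 y y.2)]
      rfl
  have hQp : IsPGroup 2 (Multiplicative Q) := fun w => ⟨n, hQ2 (Multiplicative.toAdd w)⟩
  haveI : Nontrivial Q := by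
    obtain ⟨y, hy, hy0⟩ := SetLike.exists_of_lt hle
    exact ⟨((⟨y, hy⟩ : Y) : Q), 0, fun h => hy0 ((QuotientAddGroup.eq_zero_iff (⟨y, hy⟩ : Y)).mp h :)⟩
  have hdvd : 2 ∣ Nat.card Q := by
    haveI : Fact (Nat.Prime 2) := ⟨Nat.prime_two⟩
    obtain ⟨d, hd⟩ := hQp.exists_card_eq
    rw [Nat.card_congr Multiplicative.toAdd] at hd
    rw [hd]
    refine dvd_pow_self 2 fun h0 => ?_
    rw [h0, pow_zero] at hd
    exact absurd hd (Finite.one_lt_card_iff_nontrivial.mpr inferInstance).ne'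
  haveI : Fact (Nat.Prime 2) := ⟨Nat.prime_two⟩
  obtain ⟨w, hw, hw0⟩ := hP.exists_fixed_point_of_prime_dvd_card_of_fixed_point Q hdvd
    (a := 0) (fun g => by
      obtain ⟨-, σ, rfl⟩ := g
      exact map_zero (q σ))
  obtain ⟨y, rfl⟩ := QuotientAddGroup.mk_surjective w
  have hex : ∃ k, (2 ^ k) • (y : M) ∈ Y0 := ⟨n, by rw [h2 y y.2]; exact Y0.zero_mem⟩
  have hk0 : Nat.find hex ≠ 0 := fun h0 => hw0.symm ((QuotientAddGroup.eq_zero_iff _).mpr <| by
    have := Nat.find_spec hex
    rwa [h0, pow_zero, one_smul] at this)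
  obtain ⟨k, hk⟩ := Nat.exists_eq_succ_of_ne_zero hk0
  refine ⟨(2 ^ k) • (y : M), Y.nsmul_mem y.2 _, Nat.find_min hex (hk ▸ Nat.lt_succ_self k), ?_,
    fun σ hσ => ?_⟩
  · have h := Nat.find_spec hex
    rwa [hk, pow_succ', mul_smul] at h
  · have e : ((T ⟨σ, hσ⟩ y : Y) : Q) = (y : Q) := hw ⟨_, ⟨σ, hσ⟩, rfl⟩
    have e' := (QuotientAddGroup.eq_iff_sub_mem.mp e : T ⟨σ, hσ⟩ y - y ∈ Y0.addSubgroupOf Y)
    rw [← DistribMulAction.toAddMonoidHom_apply, map_nsmul, ← smul_sub]
    exact Y0.nsmul_mem e' _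

variable [Fintype M]

open scoped Classical in
/-- The sum of a function over a coset of a subgroup. -/
def sumOn (Y : AddSubgroup M) (f : M → QBar) (x : M) : QBar :=
  ∑ y ∈ Finset.univ.filter (· ∈ Y), f (x + y)

/-- The average of a function over a coset of a subgroup. -/
def avgOn (Y : AddSubgroup M) (f : M → QBar) (x : M) : QBar :=
  sumOn Y f x / (Nat.card Y : QBar)

theorem sumOn_translate (Y : AddSubgroup M) (f : M → QBar) (x : M) {c : M} (hc : c ∈ Y) :
    sumOn Y f (x + c) = sumOn Y f x := by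
  classical
  refine Finset.sum_nbij' (c + ·) (-c + ·) (fun y hy => ?_) (fun y hy => ?_) (fun y _ => by simp)
    (fun y _ => by simp) (fun y _ => by rw [add_assoc])
  · simp only [Finset.mem_filter, Finset.mem_univ, true_and, Finset.mem_coe] at hy ⊢
    exact Y.add_mem hc hy
  · simp only [Finset.mem_filter, Finset.mem_univ, true_and, Finset.mem_coe] at hy ⊢
    exact Y.add_mem (Y.neg_mem hc) hy

theorem map_sumOn (O : GalOrder 2 M) {f : M → QBar} (hf : f ∈ O.H) {Y : AddSubgroup M} {σ : GQ}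
    (hst : ∀ y ∈ Y, σ • y ∈ Y) (hst' : ∀ y ∈ Y, σ⁻¹ • y ∈ Y) (x : M) :
    σ (sumOn Y f x) = sumOn Y f (σ • x) := by
  classical
  rw [sumOn, map_sum]
  refine Finset.sum_nbij' (σ • ·) (σ⁻¹ • ·) (fun y hy => ?_) (fun y hy => ?_)
    (fun y _ => inv_smul_smul σ y) (fun y _ => smul_inv_smul σ y)
    (fun y _ => by rw [← O.equivariant f hf, smul_add])
  · simp only [Finset.mem_filter, Finset.mem_univ, true_and, Finset.mem_coe] at hy ⊢
    exact hst y hy
  · simp only [Finset.mem_filter, Finset.mem_univ, true_and, Finset.mem_coe] at hy ⊢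
    exact hst' y hy

/-- The average over the subgroup is integral. -/
theorem avgOn_mem (hA : A.LiesOverPrime 2) (O : GalOrder 2 M) (Y : AddSubgroup M) {n : ℕ}
    (h2 : ∀ y ∈ Y, (2 ^ n) • y = 0)
    (hst : ∀ σ ∈ A.inertiaSubgroupIn ℚ, ∀ y ∈ Y, σ • y ∈ Y)
    (hunip : ∀ σ ∈ A.inertiaSubgroupIn ℚ, ∃ k : ℕ, ∀ y ∈ Y, σ ^ (2 ^ k) • y = y)
    (hcongr : ∀ f ∈ O.H, ∀ y ∈ Y, f y - f 0 ∈ A.nonunits) {f : M → QBar} (hf : f ∈ O.H) :
    avgOn Y f 0 ∈ A := by
  classical
  let P : AddSubgroup M → Prop := fun Z => Z ≤ Y ∧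
    (∀ σ ∈ A.inertiaSubgroupIn ℚ, ∀ y ∈ Z, σ • y ∈ Z) ∧ ∀ f ∈ O.H, avgOn Z f 0 ∈ A
  haveI : Finite (AddSubgroup M) := Finite.of_injective _ SetLike.coe_injective
  have hbot : P ⊥ := ⟨bot_le, fun σ _ y hy => by
      rw [AddSubgroup.mem_bot] at hy ⊢; rw [hy, smul_zero], fun f hf => by
      have e : (Finset.univ.filter fun y : M => y ∈ (⊥ : AddSubgroup M)) = {0} := by ext; simp
      rw [avgOn, sumOn, e, Finset.sum_singleton, add_zero, AddSubgroup.card_bot, Nat.cast_one,
        div_one]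
      exact apply_mem_two hA O hf 0⟩
  obtain ⟨Y0, hY0⟩ := (Set.toFinite {Z | P Z}).toFinset.exists_maximal ⟨⊥, by simpa using hbot⟩
  simp only [Set.Finite.mem_toFinset] at hY0
  obtain ⟨⟨hle, hst0, havg⟩, hmax⟩ := hY0
  rcases hle.eq_or_lt with rfl | hlt
  · exact havg f hf
  exfalso
  obtain ⟨z, hzY, hz0, hz2, hzσ⟩ := exists_step (A.inertiaSubgroupIn ℚ) hlt h2 hst hst0 hunip
  set Y1 : AddSubgroup M := Y0 ⊔ AddSubgroup.zmultiples z
  have hmem : ∀ y, y ∈ Y1 ↔ y ∈ Y0 ∨ y - z ∈ Y0 := by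
    intro y
    constructor
    · intro hy
      obtain ⟨u, hu, v, hv, rfl⟩ := AddSubgroup.mem_sup.mp hy
      obtain ⟨i, rfl⟩ := AddSubgroup.mem_zmultiples_iff.mp hv
      have hz2' : (2 : ℤ) • z ∈ Y0 := by simpa [two_smul, two_nsmul] using hz2
      rcases Int.emod_two_eq_zero_or_one i with h | h
      · refine Or.inl (Y0.add_mem hu ?_)
        rw [← Int.mul_ediv_add_emod i 2, h, add_zero, mul_comm, mul_smul]
        exact Y0.zsmul_mem hz2' _
      · refine Or.inr ?_
        rw [← Int.mul_ediv_add_emod i 2, h, add_smul, one_smul, mul_comm, mul_smul, ← add_assoc,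
          add_sub_cancel_right]
        exact Y0.add_mem hu (Y0.zsmul_mem hz2' _)
    · rintro (h | h)
      · exact AddSubgroup.mem_sup_left h
      · have := Y1.add_mem (AddSubgroup.mem_sup_left h)
          (AddSubgroup.mem_sup_right (S := Y0) (AddSubgroup.mem_zmultiples z))
        rwa [sub_add_cancel] at this
  have hsum : ∀ g : M → QBar, sumOn Y1 g 0 = sumOn Y0 g 0 + sumOn Y0 g z := by
    intro g
    have hset : (Finset.univ.filter fun y => y ∈ Y1) =
        (Finset.univ.filter fun y => y ∈ Y0) ∪ (Finset.univ.filter fun y => y ∈ Y0).image (z + ·) := by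
      ext y
      simp only [Finset.mem_filter, Finset.mem_univ, true_and, Finset.mem_union, Finset.mem_image]
      rw [hmem]
      refine or_congr Iff.rfl ⟨fun h => ⟨y - z, h, add_sub_cancel z y⟩, ?_⟩
      rintro ⟨w, hw, rfl⟩
      rwa [add_sub_cancel_left]
    rw [sumOn, hset, Finset.sum_union, Finset.sum_image fun a _ b _ h => add_left_cancel h]
    · simp [sumOn]
    · rw [Finset.disjoint_left]
      rintro y hy hy'
      simp only [Finset.mem_filter, Finset.mem_univ, true_and, Finset.mem_image] at hy hy'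
      obtain ⟨w, hw, rfl⟩ := hy'
      exact hz0 (by simpa using Y0.sub_mem hy hw)
  have hcard : (Nat.card Y1 : QBar) = 2 * (Nat.card Y0 : QBar) := by
    have := hsum fun _ => 1
    simp only [sumOn, Finset.sum_const, nsmul_eq_mul, mul_one] at this
    rw [Nat.card_eq_fintype_card, Nat.card_eq_fintype_card, Fintype.card_subtype, Fintype.card_subtype,
      this]
    ring
  have hst1 : ∀ σ ∈ A.inertiaSubgroupIn ℚ, ∀ y ∈ Y1, σ • y ∈ Y1 := by
    intro σ hσ y hy
    rw [hmem] at hy ⊢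
    rcases hy with h | h
    · exact Or.inl (hst0 σ hσ y h)
    · refine Or.inr ?_
      have := Y0.add_mem (hst0 σ hσ _ h) (hzσ σ hσ)
      rwa [smul_sub, sub_add_sub_cancel] at this
  have hP1 : P Y1 := by
    refine ⟨sup_le hle (AddSubgroup.zmultiples_le.mpr hzY), hst1, fun g hg => ?_⟩
    obtain ⟨r, a, b, ha, hb, hab⟩ := O.comul g hg
    have hG : ∀ w, avgOn Y0 g w = ∑ i, avgOn Y0 (a i) 0 * b i w := fun w => by
      simp only [avgOn, sumOn, zero_add, div_mul_eq_mul_div, ← Finset.sum_div, Finset.sum_mul]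
      rw [Finset.sum_comm]
      congr 1
      exact Finset.sum_congr rfl fun y _ => by rw [add_comm, hab]
    set d := avgOn Y0 g z - avgOn Y0 g 0
    have hd : d ∈ A.nonunits := by
      have e : d = ∑ i, avgOn Y0 (a i) 0 * (b i z - b i 0) := by
        simp only [d, hG, mul_sub, Finset.sum_sub_distrib]
      rw [A.mem_nonunits_iff, e]
      refine A.valuation.map_sum_lt one_ne_zero fun i _ => ?_
      rw [map_mul]
      exact mul_lt_one_of_nonneg_of_lt_one_right
        ((A.valuation_le_one_iff _).mpr (havg _ (ha i))) zero_le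
        ((A.mem_nonunits_iff).mp (hcongr _ (hb i) z hzY))
    have hdfix : ∀ τ ∈ A.inertiaSubgroupIn ℚ, τ d = d := fun τ hτ => by
      have hmap : ∀ w, τ (avgOn Y0 g w) = avgOn Y0 g (τ • w) := fun w => by
        rw [avgOn, map_div₀, map_natCast,
          map_sumOn O hg (hst0 τ hτ) (hst0 _ (inv_mem hτ)) w, avgOn]
      rw [map_sub, hmap, hmap, smul_zero, avgOn, avgOn,
        show τ • z = z + (τ • z - z) by abel, sumOn_translate Y0 g z (hzσ τ hτ)]
      rfl
    have he : d / 2 ∈ A := (A.valuation_le_one_iff _).mp (by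
      rw [map_div₀]
      exact div_le_one_of_le₀ (valuation_le_two_of_fixed hA ((A.mem_nonunits_iff).mp hd) hdfix)
        zero_le)
    have e : avgOn Y1 g 0 = avgOn Y0 g 0 + d / 2 := by
      simp only [d, avgOn, hsum, hcard]
      field_simp
      ring
    rw [e]
    exact add_mem (havg g hg) he
  exact hz0 ((hmem z).mpr (Or.inr (by rw [sub_self]; exact Y0.zero_mem)) |>
    hmax hP1 le_sup_left)

end Fermat.Agent.TwoAdic.LocalTwo
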