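import Fermat.Agent.TwoAdic.LocalTwo.Haar
import Mathlib.GroupTheory.FiniteAbelian.Duality
import Mathlib.RingTheory.RootsOfUnity.AlgebraicallyClosed

/-!
# A connected finite module with unipotent inertia is multiplicative

The twisted averages of the functions of the order are integral idempotents with one unit value for
every character, so inertia fixes every character (it acts on the module by the cyclotomic
character), and a class whose differences lie in the module is fixed by the inertia elements that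
fix the roots of two power order of the units of the maximal unramified ring.
-/

set_option autoImplicit false
set_option linter.style.haveILetI false
set_option linter.unusedSectionVars false

noncomputable section

namespace Fermat.Agent.TwoAdic.LocalTwo

open Fermat.Agent Fermat.Agent.Arith Fermat.Agent.FiniteFlat
open scoped Pointwise

variable {A : ValuationSubring QBar} {M : Type} [AddCommGroup M] [DistribMulAction GQ M]

/-- The hypotheses on a connected part of a module with a Galois order. -/
structure ConnPart (A : ValuationSubring QBar) (O : GalOrder 2 M) (Y : AddSubgroup M) (n : ℕ) :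
    Prop where
  killed : ∀ y ∈ Y, (2 ^ n) • y = 0
  stable : ∀ σ ∈ A.inertiaSubgroupIn ℚ, ∀ y ∈ Y, σ • y ∈ Y
  unip : ∀ σ ∈ A.inertiaSubgroupIn ℚ, ∃ k : ℕ, ∀ y ∈ Y, σ ^ (2 ^ k) • y = y
  congr : ∀ f ∈ O.H, ∀ y ∈ Y, f y - f 0 ∈ A.nonunits

variable [Fintype M] {Y : AddSubgroup M} {n : ℕ}

open scoped Classical in
/-- The average of a function over a coset, twisted by a character. -/
def charAvg (η : AddChar Y QBar) (f : M → QBar) (x : M) : QBar :=
  (∑ y : Y, η y * f (x + y)) / (Nat.card Y : QBar)

theorem natCard_ne_zero (Y : AddSubgroup M) : (Nat.card Y : QBar) ≠ 0 :=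
  Nat.cast_ne_zero.mpr Nat.card_pos.ne'

open scoped Classical in
theorem charAvg_comul {f : M → QBar} {r : ℕ} {a b : Fin r → M → QBar}
    (h : ∀ x y, f (x + y) = ∑ i, a i x * b i y) (η : AddChar Y QBar) (x : M) :
    charAvg η f x = ∑ i, a i x * charAvg η (b i) 0 := by
  simp only [charAvg, zero_add, h, Finset.mul_sum, mul_div, ← Finset.sum_div]
  rw [Finset.sum_comm]
  congr 1
  exact Finset.sum_congr rfl fun i _ => Finset.sum_congr rfl fun y _ => by ring

theorem charAvg_translate (η : AddChar Y QBar) (f : M → QBar) (x : M) (c : Y) :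
    charAvg η f (x + c) = η (-c) * charAvg η f x := by
  classical
  simp only [charAvg, mul_div, Finset.mul_sum]
  congr 1
  refine Fintype.sum_equiv (Equiv.addLeft c) _ _ fun y => ?_
  rw [Equiv.coe_addLeft, AddSubgroup.coe_add, ← mul_assoc, ← AddChar.map_add_eq_mul,
    neg_add_cancel_left, add_assoc]

open scoped Classical in
/-- The twisted averages are orthogonal idempotents for the convolution. -/
theorem charAvg_conv {f : M → QBar} {r : ℕ} {a b : Fin r → M → QBar}
    (h : ∀ x y, f (x + y) = ∑ i, a i x * b i y) (η η' : AddChar Y QBar) :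
    ∑ i, charAvg η (a i) 0 * charAvg η' (b i) 0 =
      if η = η' then charAvg η' f 0 else 0 := by
  set N : QBar := (Nat.card Y : QBar)
  have hN : N ≠ 0 := natCard_ne_zero Y
  have horth : (∑ x : Y, η x * η' (-x)) = if η = η' then N else 0 := by
    split_ifs with he
    · subst he
      simp [← AddChar.map_add_eq_mul, N]
    · have h0 : η * η'⁻¹ ≠ 1 := fun h => he (mul_inv_eq_one.mp h)
      rw [← AddChar.sum_eq_zero_iff_ne_zero.mpr h0]
      simp [AddChar.mul_apply, AddChar.inv_apply]
  calc ∑ i, charAvg η (a i) 0 * charAvg η' (b i) 0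
      = (∑ x : Y, η x * ∑ y : Y, η' y * f ((x : M) + y)) / N ^ 2 := by
        simp only [charAvg, zero_add, h, Finset.mul_sum, Finset.sum_mul, div_mul_div_comm,
          ← Finset.sum_div, N, sq]
        congr 1
        refine Eq.trans (Finset.sum_congr rfl fun i _ => Finset.sum_comm) (Eq.trans Finset.sum_comm ?_)
        refine Finset.sum_congr rfl fun x _ => Eq.trans Finset.sum_comm ?_
        exact Finset.sum_congr rfl fun y _ => Finset.sum_congr rfl fun i _ => by ring
    _ = (∑ x : Y, η x * η' (-x) * (N * charAvg η' f 0)) / N ^ 2 := by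
        congr 1
        refine Finset.sum_congr rfl fun x _ => ?_
        rw [mul_assoc]
        congr 1
        have e := charAvg_translate η' f 0 x
        rw [mul_left_comm, ← e]
        simp only [charAvg, zero_add, N]
        field_simp
    _ = _ := by
        rw [← Finset.sum_mul, horth]
        split_ifs
        · field_simp
        · simp

theorem exists_char_ne_one [Finite M] {y : Y} (hy : y ≠ 0) : ∃ η : AddChar Y QBar, η y ≠ 1 := by
  haveI : NeZero (Monoid.exponent (Multiplicative Y)) :=
    ⟨Monoid.exponent_ne_zero_of_finite⟩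
  obtain ⟨φ, hφ⟩ := CommGroup.exists_apply_ne_one_of_hasEnoughRootsOfUnity (Multiplicative Y) QBar
    (a := Multiplicative.ofAdd y) (fun h => hy (Multiplicative.ofAdd.injective h))
  refine ⟨AddChar.toMonoidHomEquiv.symm ((Units.coeHom QBar).comp φ), fun h => hφ (Units.ext ?_)⟩
  simpa using h

section Conn

variable (hA : A.LiesOverPrime 2) (O : GalOrder 2 M) (hY : ConnPart A O Y n)

include hA hY

theorem charAvg_one_mem {f : M → QBar} (hf : f ∈ O.H) : charAvg (1 : AddChar Y QBar) f 0 ∈ A := by
  classical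
  have := avgOn_mem hA O Y hY.killed hY.stable hY.unip hY.congr hf
  rw [avgOn, sumOn, Finset.sum_subtype (p := (· ∈ Y)) _ (fun y => by simp)] at this
  simpa [charAvg] using this

/-- The twisted averages are integral. -/
theorem charAvg_zero_mem (η : AddChar Y QBar) {f : M → QBar} (hf : f ∈ O.H) :
    charAvg η f 0 ∈ A := by
  classical
  set N : QBar := (Nat.card Y : QBar)
  -- functionals integral on the order
  let D : (Y → QBar) → Prop := fun c => ∀ g ∈ O.H, (∑ y : Y, c y * g y) ∈ A
  let conv : (Y → QBar) → (Y → QBar) → Y → QBar := fun c c' z => ∑ x : Y, c x * c' (z - x)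
  have hconv_sum : ∀ c c' (F : Y → QBar), ∑ z : Y, conv c c' z * F z =
      ∑ x : Y, ∑ y : Y, c x * c' y * F (x + y) := by
    intro c c' F
    simp only [conv, Finset.sum_mul]
    rw [Finset.sum_comm]
    refine Finset.sum_congr rfl fun x _ => ?_
    exact Fintype.sum_equiv (Equiv.subRight x) _ _ fun z => by simp
  have hDconv : ∀ c c', D c → D c' → D (conv c c') := by
    intro c c' hc hc' g hg
    obtain ⟨r, a, b, ha, hb, hab⟩ := O.comul g hg
    have e : (∑ z : Y, conv c c' z * g z) =
        ∑ i, (∑ x : Y, c x * a i x) * ∑ y : Y, c' y * b i y := by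
      rw [hconv_sum c c' fun z => g z]
      simp only [AddSubgroup.coe_add, hab, Finset.mul_sum]
      rw [Finset.sum_congr rfl fun x _ => Finset.sum_comm, Finset.sum_comm]
      refine Finset.sum_congr rfl fun i _ => ?_
      rw [Finset.sum_comm]
      refine Finset.sum_congr rfl fun y _ => ?_
      rw [Finset.sum_mul]
      exact Finset.sum_congr rfl fun x _ => by ring
    rw [e]
    exact sum_mem fun i _ => mul_mem (hc _ (ha i)) (hc' _ (hb i))
  let ev : (Y → QBar) → QBar := fun c => ∑ y : Y, c y * η y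
  have hev : ∀ c c', ev (conv c c') = ev c * ev c' := by
    intro c c'
    simp only [ev]
    rw [hconv_sum, Finset.sum_mul_sum]
    exact Finset.sum_congr rfl fun x _ => Finset.sum_congr rfl fun y _ => by
      rw [AddChar.map_add_eq_mul]; ring
  set c₀ : Y → QBar := fun y => f y / N
  have hc₀ : D c₀ := fun g hg => by
    have := charAvg_one_mem hA O hY (O.H.mul_mem hf hg)
    simp only [charAvg, AddChar.one_apply, one_mul, zero_add, Pi.mul_apply, Finset.sum_div] at this
    convert this using 1
    exact Finset.sum_congr rfl fun y _ => by simp [c₀, N]; ring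
  have hz : charAvg η f 0 = ev c₀ := by
    simp only [charAvg, zero_add, ev, c₀, Finset.sum_div, N]
    exact Finset.sum_congr rfl fun y _ => by ring
  rw [hz]
  by_contra hbad
  set z := ev c₀
  have hpow : ∀ k : ℕ, ∃ c, D c ∧ ev c = z ^ (k + 1) := by
    intro k
    induction k with
    | zero => exact ⟨c₀, hc₀, (pow_one z).symm⟩
    | succ k ih =>
      obtain ⟨c, hc, he⟩ := ih
      exact ⟨conv c c₀, hDconv c c₀ hc hc₀, by rw [hev, he, ← pow_succ]⟩
  -- a common denominator of the functionals
  have hspan : ∀ y : Y, ∃ (r : ℕ) (w : Fin r → QBar) (g : Fin r → O.H),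
      (Pi.single (y : M) (1 : QBar) : M → QBar) = ∑ k, w k • ((g k : O.H) : M → QBar) := by
    intro y
    obtain ⟨r, w, g, h⟩ := Submodule.mem_span_set'.mp
      (show (Pi.single (y : M) (1 : QBar) : M → QBar) ∈
        Submodule.span QBar (O.H : Set (M → QBar)) by rw [O.span_eq_top]; trivial)
    exact ⟨r, w, g, h.symm⟩
  choose r w g hwg using hspan
  choose s hs using fun y : Y => fun k : Fin (r y) => exists_natCast_pow_mul_mem hA Nat.prime_two (w y k)
  set T := Finset.univ.sup fun y : Y => Finset.univ.sup (s y)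
  have hbound : ∀ c, D c → ∀ y : Y, (2 : QBar) ^ T * c y ∈ A := by
    intro c hc y
    have e : c y = ∑ k, w y k * ∑ x : Y, c x * (g y k : M → QBar) x := by
      simp only [Finset.mul_sum]
      rw [Finset.sum_comm]
      have : ∀ x : Y, ∑ k, w y k * (c x * (g y k : M → QBar) x) =
          c x * (Pi.single (y : M) (1 : QBar) : M → QBar) x := fun x => by
        rw [hwg, Finset.sum_apply, Finset.mul_sum]
        exact Finset.sum_congr rfl fun k _ => by simp only [Pi.smul_apply, smul_eq_mul]; ring
      simp only [this, Pi.single_apply, mul_ite, mul_one, mul_zero, Subtype.coe_inj]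
      simp
    rw [e, Finset.mul_sum]
    refine sum_mem fun k _ => ?_
    rw [← mul_assoc]
    refine mul_mem ?_ (hc _ (g y k).2)
    have hk : s y k ≤ T := (Finset.le_sup (Finset.mem_univ k)).trans
      (Finset.le_sup (f := fun y : Y => Finset.univ.sup (s y)) (Finset.mem_univ y))
    obtain ⟨d, hd⟩ := Nat.exists_eq_add_of_le hk
    rw [hd, pow_add, mul_right_comm]
    exact mul_mem (by simpa using hs y k) (pow_mem (by exact_mod_cast natCast_mem A 2) d)
  have hη : ∀ y : Y, η y ∈ A := fun y => by
    refine (A.valuation_le_one_iff _).mp ((pow_le_one_iff (n := 2 ^ n) (by positivity)).mp ?_)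
    rw [← map_pow, ← AddChar.map_nsmul_eq_pow,
      show (2 ^ n) • y = 0 from Subtype.ext (hY.killed y y.2), AddChar.map_zero_eq_one, map_one]
  have hzlt : A.valuation z⁻¹ < 1 := by
    rw [map_inv₀, inv_lt_one₀ (zero_lt_iff.mpr fun h0 => hbad ((A.valuation_le_one_iff _).mp
      (by rw [h0]; exact zero_le)))]
    exact lt_of_not_ge fun h => hbad ((A.valuation_le_one_iff _).mp h)
  obtain ⟨e, he0, he⟩ := exists_pow_le_two hA hzlt
  obtain ⟨c, hc, hce⟩ := hpow (e * (T + 1) - 1)
  rw [Nat.sub_add_cancel (Nat.one_le_iff_ne_zero.mpr (mul_ne_zero he0.ne' T.succ_ne_zero))] at hce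
  have hle : A.valuation ((2 : QBar) ^ T * z ^ (e * (T + 1))) ≤ 1 := by
    refine (A.valuation_le_one_iff _).mpr ?_
    rw [← hce]
    simp only [ev, Finset.mul_sum, ← mul_assoc]
    exact sum_mem fun y _ => mul_mem (hbound c hc y) (hη y)
  have hz0 : z ≠ 0 := fun h => hbad (h ▸ A.zero_mem)
  have h2 : A.valuation (2 : QBar) ≠ 0 := A.valuation.ne_zero_iff.mpr (by norm_num)
  have hle2 : A.valuation z⁻¹ ^ (e * (T + 1)) ≤ A.valuation (2 : QBar) ^ (T + 1) := by
    rw [pow_mul]; exact pow_le_pow_left₀ zero_le he _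
  have hle3 : A.valuation (2 : QBar) ^ T ≤ A.valuation z⁻¹ ^ (e * (T + 1)) := by
    rw [map_mul, map_pow, map_pow] at hle
    rw [map_inv₀, inv_pow]
    have hb := pow_ne_zero (e * (T + 1)) (A.valuation.ne_zero_iff.mpr hz0)
    calc A.valuation (2 : QBar) ^ T
        = A.valuation (2 : QBar) ^ T * A.valuation z ^ (e * (T + 1)) *
            (A.valuation z ^ (e * (T + 1)))⁻¹ := (mul_inv_cancel_right₀ hb _).symm
      _ ≤ 1 * (A.valuation z ^ (e * (T + 1)))⁻¹ := mul_le_mul_left hle _
      _ = _ := one_mul _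
  exact absurd (hle3.trans hle2)
    (not_le.mpr (pow_lt_pow_right_of_lt_one₀ (zero_lt_iff.mpr h2) (valuation_two_lt_one hA) (by omega)))

theorem charAvg_mem (η : AddChar Y QBar) {f : M → QBar} (hf : f ∈ O.H) (x : M) :
    charAvg η f x ∈ A := by
  obtain ⟨r, a, b, ha, hb, hab⟩ := O.comul f hf
  rw [charAvg_comul hab]
  exact sum_mem fun i _ => mul_mem (apply_mem_two hA O (ha i) x) (charAvg_zero_mem hA O hY η (hb i))

/-- For every character some function has a unit twisted average. -/
theorem exists_unit_charAvg (η : AddChar Y QBar) (x : M) :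
    ∃ f ∈ O.H, A.valuation (charAvg η f x) = 1 := by
  classical
  by_contra! hall
  have hlt : ∀ f ∈ O.H, A.valuation (charAvg η f x) < 1 := fun f hf =>
    lt_of_le_of_ne ((A.valuation_le_one_iff _).mpr (charAvg_mem hA O hY η hf x)) (hall f hf)
  have hlt0 : ∀ f ∈ O.H, A.valuation (charAvg η f 0) < 1 := by
    intro f hf
    obtain ⟨r, a, b, ha, hb, hab⟩ := O.comul f hf
    have e : charAvg η f 0 = ∑ i, charAvg η (a i) x * b i (-x) := by
      simp only [charAvg, zero_add, div_mul_eq_mul_div, ← Finset.sum_div, Finset.sum_mul]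
      rw [Finset.sum_comm]
      congr 1
      refine Finset.sum_congr rfl fun y _ => ?_
      rw [show f y = f ((x + y) + -x) by congr 1; abel, hab, Finset.mul_sum]
      exact Finset.sum_congr rfl fun i _ => by ring
    rw [e]
    refine A.valuation.map_sum_lt one_ne_zero fun i _ => ?_
    rw [map_mul]
    exact mul_lt_one_of_nonneg_of_lt_one_left zero_le (hlt _ (ha i))
      ((A.valuation_le_one_iff _).mpr (apply_mem_two hA O (hb i) _))
  -- the largest value on a basis
  have hexp : ∀ (φ : O.H), charAvg η (φ : M → QBar) 0 =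
      ∑ k, ((O.basis.repr φ k : Zl 2) : ℚ) * charAvg η ((O.basis k : O.H) : M → QBar) 0 := by
    intro φ
    conv_lhs => rw [← O.basis.sum_repr φ]
    simp only [charAvg, zero_add, AddSubmonoidClass.coe_finsetSum, Finset.sum_apply,
      SetLike.val_smul, Pi.smul_apply, zl_smul, Finset.mul_sum, mul_div, ← Finset.sum_div]
    rw [Finset.sum_comm]
    congr 1
    exact Finset.sum_congr rfl fun k _ => Finset.sum_congr rfl fun y _ => by ring
  obtain ⟨k₀, -, hk₀⟩ : ∃ k₀ ∈ (Finset.univ : Finset (Module.Free.ChooseBasisIndex (Zl 2) O.H)),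
      ∀ k ∈ (Finset.univ : Finset _), A.valuation (charAvg η ((O.basis k : O.H) : M → QBar) 0) ≤
        A.valuation (charAvg η ((O.basis k₀ : O.H) : M → QBar) 0) := by
    refine Finset.exists_max_image _ _ ?_
    rw [Finset.univ_nonempty_iff]
    by_contra hempty
    rw [not_nonempty_iff] at hempty
    have := O.card_basis
    rw [Nat.card_of_isEmpty] at this
    exact (Nat.card_pos (α := M)).ne this
  set s := A.valuation (charAvg η ((O.basis k₀ : O.H) : M → QBar) 0)
  have hle : ∀ φ : O.H, A.valuation (charAvg η (φ : M → QBar) 0) ≤ s := fun φ => by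
    rw [hexp]
    refine A.valuation.map_sum_le fun k hk => ?_
    rw [map_mul]
    exact mul_le_of_le_one_of_le ((A.valuation_le_one_iff _).mpr (zl_mem_of_lies hA _)) (hk₀ k hk)
  obtain ⟨r, a, b, ha, hb, hab⟩ := O.comul _ (O.basis k₀).2
  have hsq : s ≤ s * s := by
    show A.valuation (charAvg η ((O.basis k₀ : O.H) : M → QBar) 0) ≤ _
    have e := charAvg_conv hab η η
    rw [if_pos rfl] at e
    rw [← e]
    refine A.valuation.map_sum_le fun i _ => ?_
    rw [map_mul]
    exact mul_le_mul' (hle ⟨_, ha i⟩) (hle ⟨_, hb i⟩)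
  have hs0 : s = 0 := by
    by_contra h
    exact absurd hsq (not_le.mpr (mul_lt_of_lt_one_right (zero_lt_iff.mpr h) (hlt0 _ (O.basis k₀).2)))
  -- so the character vanishes
  let L : (M → QBar) →ₗ[QBar] QBar :=
    { toFun := fun g => charAvg η g 0
      map_add' := fun g g' => by
        simp [charAvg, mul_add, Finset.sum_add_distrib, add_div]
      map_smul' := fun c g => by
        simp [charAvg, Finset.mul_sum, mul_div, mul_left_comm, ← Finset.sum_div] }
  have hL : Submodule.span QBar (O.H : Set (M → QBar)) ≤ LinearMap.ker L := by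
    rw [Submodule.span_le]
    intro φ hφ
    have := hle ⟨φ, hφ⟩
    rw [hs0, le_zero_iff, map_eq_zero] at this
    exact this
  have := hL (show (Pi.single 0 1 : M → QBar) ∈ _ by rw [O.span_eq_top]; trivial)
  simp only [LinearMap.mem_ker, L, LinearMap.coe_mk, AddHom.coe_mk, charAvg, zero_add,
    Pi.single_apply, mul_ite, mul_one, mul_zero, ZeroMemClass.coe_eq_zero, Finset.sum_ite_eq',
    Finset.mem_univ, if_true, AddChar.map_zero_eq_one] at this
  exact natCard_ne_zero Y (by simpa using this)

/-- Inertia fixes every character. -/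
theorem map_char_eq (η : AddChar Y QBar) {σ : GQ} (hσ : σ ∈ A.inertiaSubgroupIn ℚ) (y : Y) :
    η ⟨σ • (y : M), hY.stable σ hσ y y.2⟩ = σ (η y) := by
  classical
  let e : Y ≃+ Y :=
    { toFun := fun y => ⟨σ • (y : M), hY.stable σ hσ y y.2⟩
      invFun := fun y => ⟨σ⁻¹ • (y : M), hY.stable _ (inv_mem hσ) y y.2⟩
      left_inv := fun y => Subtype.ext (inv_smul_smul σ _)
      right_inv := fun y => Subtype.ext (smul_inv_smul σ _)
      map_add' := fun y z => Subtype.ext (smul_add σ _ _) }
  let η' : AddChar Y QBar :=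
    { toFun := fun y => σ (η (e.symm y))
      map_zero_eq_one' := by simp
      map_add_eq_mul' := fun y z => by simp [AddChar.map_add_eq_mul] }
  have hmap : ∀ g ∈ O.H, σ (charAvg η g 0) = charAvg η' g 0 := by
    intro g hg
    simp only [charAvg, zero_add, map_div₀, map_natCast, map_sum, map_mul]
    congr 1
    refine Fintype.sum_equiv e.toEquiv _ _ fun y => ?_
    show σ (η y) * σ (g y) = σ (η (e.symm (e y))) * g (σ • (y : M))
    rw [e.symm_apply_apply, O.equivariant g hg]
  have hη : η = η' := by
    by_contra hne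
    obtain ⟨f, hf, hf1⟩ := exists_unit_charAvg hA O hY η 0
    obtain ⟨r, a, b, ha, hb, hab⟩ := O.comul f hf
    have e1 := charAvg_conv hab η η
    have e2 := charAvg_conv hab η η'
    rw [if_pos rfl] at e1
    rw [if_neg hne] at e2
    have hlt : A.valuation (charAvg η f 0) < 1 := by
      rw [← sub_zero (charAvg η f 0), ← e2, ← e1, ← Finset.sum_sub_distrib]
      refine A.valuation.map_sum_lt one_ne_zero fun i _ => ?_
      rw [← mul_sub, map_mul, ← hmap _ (hb i), A.valuation.map_sub_swap]
      refine mul_lt_one_of_nonneg_of_lt_one_right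
        ((A.valuation_le_one_iff _).mpr (charAvg_zero_mem hA O hY η (ha i))) zero_le
        ((A.mem_nonunits_iff).mp ?_)
      exact ((mem_inertia_iff_forall_mem.mp hσ).2 _ (charAvg_zero_mem hA O hY η (hb i)))
    exact hlt.ne hf1
  have := DFunLike.congr_fun hη (e y)
  rw [show η' (e y) = σ (η y) from congrArg (fun z => σ (η z)) (e.symm_apply_apply y)] at this
  exact this

/-- Inertia acts on a connected part by the cyclotomic character. -/
theorem inertia_smul_eq {σ : GQ} (hσ : σ ∈ A.inertiaSubgroupIn ℚ) {a : ℕ}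
    (ha : ∀ z : QBar, z ^ (2 ^ n) = 1 → σ z = z ^ a) {y : M} (hy : y ∈ Y) : σ • y = a • y := by
  classical
  by_contra hne
  have hd : (⟨σ • y, hY.stable σ hσ y hy⟩ : Y) - a • (⟨y, hy⟩ : Y) ≠ 0 := fun h =>
    hne (congrArg Subtype.val (sub_eq_zero.mp h))
  obtain ⟨η, hη⟩ := exists_char_ne_one hd
  apply hη
  have h1 := map_char_eq hA O hY η hσ ⟨y, hy⟩
  rw [ha _ (by rw [← AddChar.map_nsmul_eq_pow, show (2 ^ n) • (⟨y, hy⟩ : Y) = 0 from
    Subtype.ext (hY.killed y hy), AddChar.map_zero_eq_one]), ← AddChar.map_nsmul_eq_pow] at h1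
  have h2 := AddChar.map_add_eq_mul η
    ((⟨σ • y, hY.stable σ hσ y hy⟩ : Y) - a • (⟨y, hy⟩ : Y)) (a • (⟨y, hy⟩ : Y))
  rw [sub_add_cancel, h1] at h2
  have h0 : η (a • (⟨y, hy⟩ : Y)) ≠ 0 := (η.val_isUnit _).ne_zero
  exact mul_right_cancel₀ h0 (by rw [one_mul]; exact h2.symm)

/-- A class moved by inertia inside the connected part is fixed by every inertia element fixing
the roots of two power order of the fixed units. -/
theorem smul_eq_self_of_fixes {x : M} (hx : ∀ τ ∈ A.inertiaSubgroupIn ℚ, τ • x - x ∈ Y)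
    {h : GQ} (hh : h ∈ A.inertiaSubgroupIn ℚ)
    (hfix : ∀ z : QBar, A.valuation z = 1 →
      (∀ τ ∈ A.inertiaSubgroupIn ℚ, τ (z ^ (2 ^ n)) = z ^ (2 ^ n)) → h z = z) : h • x = x := by
  classical
  by_contra hne
  have hd : (⟨h • x - x, hx h hh⟩ : Y) ≠ 0 := fun e => hne (sub_eq_zero.mp (congrArg Subtype.val e))
  obtain ⟨η₀, hη₀⟩ := exists_char_ne_one hd
  apply hη₀
  obtain ⟨f, hf, hf1⟩ := exists_unit_charAvg hA O hY η₀ x
  set u := charAvg η₀ f x
  have hu : ∀ τ (hτ : τ ∈ A.inertiaSubgroupIn ℚ), τ u = η₀ (-⟨τ • x - x, hx τ hτ⟩) * u := by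
    intro τ hτ
    have e : τ u = charAvg η₀ f (τ • x) := by
      simp only [u, charAvg, map_div₀, map_natCast, map_sum, map_mul]
      congr 1
      let e : Y ≃+ Y :=
        { toFun := fun y => ⟨τ • (y : M), hY.stable τ hτ y y.2⟩
          invFun := fun y => ⟨τ⁻¹ • (y : M), hY.stable _ (inv_mem hτ) y y.2⟩
          left_inv := fun y => Subtype.ext (inv_smul_smul τ _)
          right_inv := fun y => Subtype.ext (smul_inv_smul τ _)
          map_add' := fun y z => Subtype.ext (smul_add τ _ _) }
      refine Fintype.sum_equiv e.toEquiv _ _ fun y => ?_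
      show τ (η₀ y) * τ (f (x + y)) = η₀ (e y) * f (τ • x + τ • (y : M))
      rw [← smul_add, O.equivariant f hf]
      exact congrArg (· * _) (map_char_eq hA O hY η₀ hτ y).symm
    rw [e, ← charAvg_translate, show x + ((⟨τ • x - x, hx τ hτ⟩ : Y) : M) = τ • x from
      add_sub_cancel x _]
  have hu0 : u ≠ 0 := fun e => by rw [e, map_zero] at hf1; exact zero_ne_one hf1
  have hh1 : h u = u := hfix u hf1 fun τ hτ => by
    rw [map_pow, hu τ hτ, mul_pow, ← AddChar.map_nsmul_eq_pow,
      show (2 ^ n) • (-⟨τ • x - x, hx τ hτ⟩ : Y) = 0 from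
        Subtype.ext (hY.killed _ (Y.neg_mem (hx τ hτ))), AddChar.map_zero_eq_one, one_mul]
  have h1 : η₀ (-⟨h • x - x, hx h hh⟩) = 1 :=
    mul_right_cancel₀ hu0 (by rw [one_mul, ← hu h hh, hh1])
  have h2 := AddChar.map_add_eq_mul η₀ (-⟨h • x - x, hx h hh⟩) ⟨h • x - x, hx h hh⟩
  rw [neg_add_cancel, AddChar.map_zero_eq_one, h1, one_mul] at h2
  exact h2.symm

end Conn

end Fermat.Agent.TwoAdic.LocalTwo
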