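import Fermat.Agent.TwoAdic.LocalTwo.Kernel
import Fermat.Agent.FiniteFlat.TorsionOrder
import Fermat.Agent.EichlerShimura.Specialization

/-!
# Local facts at two on the two-power torsion of `J₀(L)`, `L` odd

For a group `X` of classes killed by `2 ^ n`, stable under inertia at `2` and with unipotent inertia
on its classes reducing to zero: inertia acts on those classes by the cyclotomic character, the
reduction is unramified with Frobenius killed by `(F - α)` (`α` the unit root of `X² - a X + 2`,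
`a` the eigenvalue of `T₂`), and the inertia elements fixing the roots of two power order of the
units of the maximal unramified ring act trivially.
-/

set_option autoImplicit false
set_option linter.style.haveILetI false
set_option maxHeartbeats 1000000
set_option synthInstance.maxHeartbeats 400000

noncomputable section

namespace Fermat.Agent.TwoAdic.LocalTwo

open AlgebraicCurve ModularCurve
open Fermat.Agent Fermat.Agent.Arith Fermat.Agent.FiniteFlat
open scoped Pointwise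

/-- The inertia elements fixing every root of two power order of a unit fixed by inertia. -/
def peuFix (A : ValuationSubring QBar) : Subgroup GQ where
  carrier := {h | h ∈ A.inertiaSubgroupIn ℚ ∧ ∀ (z : QBar) (k : ℕ), A.valuation z = 1 →
    (∀ τ ∈ A.inertiaSubgroupIn ℚ, τ (z ^ (2 ^ k)) = z ^ (2 ^ k)) → h z = z}
  one_mem' := ⟨one_mem _, fun _ _ _ _ => rfl⟩
  mul_mem' := fun {g h} hg hh => ⟨mul_mem hg.1 hh.1, fun z k h1 h2 => by
    rw [AlgEquiv.mul_apply, hh.2 z k h1 h2, hg.2 z k h1 h2]⟩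
  inv_mem' := fun {g} hg => ⟨inv_mem hg.1, fun z k h1 h2 => by
    conv_lhs => rw [← hg.2 z k h1 h2]
    exact g.symm_apply_apply z⟩

theorem mem_peuFix {A : ValuationSubring QBar} {h : GQ} :
    h ∈ peuFix A ↔ h ∈ A.inertiaSubgroupIn ℚ ∧ ∀ (z : QBar) (k : ℕ), A.valuation z = 1 →
      (∀ τ ∈ A.inertiaSubgroupIn ℚ, τ (z ^ (2 ^ k)) = z ^ (2 ^ k)) → h z = z := Iff.rfl

variable {L n : ℕ} [NeZero L] {A : ValuationSubring QBar}

/-- Inertia does not move the reduction. -/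
theorem red_smul_sub (hA : A.LiesOverPrime 2) (hL : ¬ 2 ∣ L) {σ : GQ}
    (hσ : σ ∈ A.inertiaSubgroupIn ℚ) (x : JZero L) :
    reductionModL A L (σ • x - x) = 0 := by
  have := Fact.mk Nat.prime_two
  have := Arith.residueField_isAlgClosed A
  rw [map_sub, EichlerShimura.reductionModL_inertia
    (EichlerShimura.natCast_ne_zero Nat.prime_two hL hA) hσ, sub_self]

theorem exists_connPart (hA : A.LiesOverPrime 2) (hL : ¬ 2 ∣ L) (X : AddSubgroup (JZero L))
    (hn : ∀ x ∈ X, (2 ^ n) • x = 0)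
    (hst : ∀ σ ∈ A.inertiaSubgroupIn ℚ, ∀ x ∈ X, σ • x ∈ X)
    (hunip : ∀ σ ∈ A.inertiaSubgroupIn ℚ, ∃ k : ℕ,
      ∀ y ∈ X, reductionModL A L y = 0 → σ ^ (2 ^ k) • y = y) :
    ∃ (O : GalOrder 2 (JTorsBy L ((2 ^ n : ℕ) : ℤ)))
      (Y : AddSubgroup (JTorsBy L ((2 ^ n : ℕ) : ℤ))),
        (∀ y, y ∈ Y ↔ (y : JZero L) ∈ X ∧ reductionModL A L (y : JZero L) = 0) ∧
          ConnPart A O Y n := by
  obtain ⟨O, hO⟩ := exists_galOrder_jTorsBy Nat.prime_two hL A hA
    (c := ((2 ^ n : ℕ) : ℤ)) (by positivity)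
  refine ⟨O, (X ⊓ (reductionModL A L).ker).comap
    (Submodule.torsionBy ℤ (JZero L) ((2 ^ n : ℕ) : ℤ)).subtype.toAddMonoidHom, fun y => Iff.rfl,
    ⟨fun y hy => Subtype.ext ?_, fun σ hσ y hy => ⟨hst σ hσ _ hy.1, ?_⟩, fun σ hσ => ?_,
      fun f hf y hy => hO f hf y hy.2⟩⟩
  · exact hn _ hy.1
  · have := red_smul_sub hA hL hσ (y : JZero L)
    rw [map_sub, sub_eq_zero] at this
    exact this.trans hy.2
  · obtain ⟨k, hk⟩ := hunip σ hσ
    exact ⟨k, fun y hy => Subtype.ext (hk _ hy.1 hy.2)⟩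

variable (hA : A.LiesOverPrime 2) (hL : ¬ 2 ∣ L) (X : AddSubgroup (JZero L))
  (hn : ∀ x ∈ X, (2 ^ n) • x = 0)
  (hst : ∀ σ ∈ A.inertiaSubgroupIn ℚ, ∀ x ∈ X, σ • x ∈ X)
  (hunip : ∀ σ ∈ A.inertiaSubgroupIn ℚ, ∃ k : ℕ,
    ∀ y ∈ X, reductionModL A L y = 0 → σ ^ (2 ^ k) • y = y)

include hA hL hn hst hunip

/-- The classes reducing to zero are of multiplicative type. -/
theorem inertia_smul_of_red_eq_zero {σ : GQ} (hσ : σ ∈ A.inertiaSubgroupIn ℚ) {a : ℕ}
    (ha : ∀ z : QBar, z ^ (2 ^ n) = 1 → σ z = z ^ a) {y : JZero L} (hy : y ∈ X)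
    (hy0 : reductionModL A L y = 0) : σ • y = a • y := by
  obtain ⟨O, Y, hY, hC⟩ := exists_connPart hA hL X hn hst hunip
  haveI := finite_jTorsBy L (c := ((2 ^ n : ℕ) : ℤ)) (by positivity)
  haveI := Fintype.ofFinite (JTorsBy L ((2 ^ n : ℕ) : ℤ))
  let y' : JTorsBy L ((2 ^ n : ℕ) : ℤ) := ⟨y, (Submodule.mem_torsionBy_iff _ _).mpr (by
    rw [natCast_zsmul]; exact hn y hy)⟩
  exact congrArg Subtype.val (inertia_smul_eq hA O hC hσ ha ((hY y').mpr ⟨hy, hy0⟩))

/-- The inertia elements fixing the two power roots of the fixed units act trivially. -/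
theorem smul_eq_self_of_mem_peuFix {h : GQ} (hh : h ∈ peuFix A) {x : JZero L} (hx : x ∈ X) :
    h • x = x := by
  obtain ⟨O, Y, hY, hC⟩ := exists_connPart hA hL X hn hst hunip
  haveI := finite_jTorsBy L (c := ((2 ^ n : ℕ) : ℤ)) (by positivity)
  haveI := Fintype.ofFinite (JTorsBy L ((2 ^ n : ℕ) : ℤ))
  let x' : JTorsBy L ((2 ^ n : ℕ) : ℤ) := ⟨x, (Submodule.mem_torsionBy_iff _ _).mpr (by
    rw [natCast_zsmul]; exact hn x hx)⟩
  refine congrArg Subtype.val (smul_eq_self_of_fixes hA O hC (x := x') (fun τ hτ => ?_) hh.1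
    fun z hz hfix => hh.2 z n hz hfix)
  exact (hY _).mpr ⟨X.sub_mem (hst τ hτ x hx) hx, red_smul_sub hA hL hτ x⟩

omit hst hunip in
/-- Frobenius acts on the reduction by the unit root of the Hecke polynomial. -/
theorem red_frobenius_sub {F : GQ} (hF : A.IsFrobeniusAt F 2) (hFX : ∀ x ∈ X, F • x ∈ X) {a α : ℤ}
    (hT : ∀ x ∈ X, heckeOperatorBar L ⟨2, Nat.prime_two⟩ x = a • x)
    (hα : ((2 ^ n : ℕ) : ℤ) ∣ α * α - a * α + 2) (hβ : (2 : ℤ) ∣ a - α) {x : JZero L} (hx : x ∈ X) :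
    reductionModL A L (F • x - α • x) = 0 := by
  have := Fact.mk Nat.prime_two
  have := Arith.residueField_charP hA Nat.prime_two
  have := Arith.residueField_isAlgClosed A
  have hNA := EichlerShimura.natCast_ne_zero Nat.prime_two hL hA
  set Φ := EichlerShimura.coeffAut L (EichlerShimura.frobRing A 2)
  set w := reductionModL A L (F • x - α • x)
  have hpow : ∀ z : JZero L, z ∈ X → ((2 ^ n : ℕ) : ℤ) • z = 0 := fun z hz => by
    rw [natCast_zsmul]; exact hn z hz
  have hzs : ∀ (g : SemilinearAut (EichlerShimura.Kappa A)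
      (modularFunctionFieldFullC (EichlerShimura.Kappa A) L)) (m : ℤ)
      (u : JZeroC (EichlerShimura.Kappa A) L), g • (m • u) = m • (g • u) := fun g m u =>
    map_zsmul (DistribSMul.toAddMonoidHom _ g) m u
  have hq := EichlerShimura.reductionModL_quadratic Nat.prime_two hL hA hF x
  rw [hT _ (hFX x hx), map_add, map_sub, map_zsmul, map_nsmul, ← natCast_zsmul] at hq
  have hw0 : w = reductionModL A L (F • x) - α • reductionModL A L x :=
    (map_sub _ _ _).trans (congrArg _ (map_zsmul _ _ _))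
  obtain ⟨c, hc⟩ := hα
  have h0 : (α * α - a * α + 2) • reductionModL A L x = 0 := by
    rw [hc, mul_comm, mul_smul, ← map_zsmul, hpow x hx, map_zero, smul_zero]
  have hΦ : Φ • w = (a - α) • w := by
    rw [hw0, smul_sub, hzs, ← EichlerShimura.reductionModL_frobenius hNA hF (F • x),
      ← EichlerShimura.reductionModL_frobenius hNA hF x]
    push_cast at hq h0
    linear_combination (norm := module) hq - h0
  have e : w = (a - α) • (Φ⁻¹ • w) := by rw [← hzs, ← hΦ, inv_smul_smul]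
  have hw : ∀ k : ℕ, ∃ v, w = (a - α) ^ k • v ∧ ((2 ^ n : ℕ) : ℤ) • v = 0 := by
    intro k
    induction k with
    | zero =>
      refine ⟨w, (one_smul ℤ w).symm.trans (by rw [pow_zero]), ?_⟩
      rw [← map_zsmul, hpow _ (X.sub_mem (hFX x hx) (X.zsmul_mem hx α)), map_zero]
    | succ k ih =>
      obtain ⟨v, hv, hv2⟩ := ih
      refine ⟨Φ⁻¹ • v, ?_, by rw [← hzs, hv2]; exact map_zero (DistribSMul.toAddMonoidHom (JZeroC (EichlerShimura.Kappa A) L) Φ⁻¹)⟩
      conv_lhs => rw [e, hv, hzs, ← mul_smul]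
      rw [pow_succ']
  obtain ⟨v, hv, hv2⟩ := hw n
  obtain ⟨c, hc⟩ := hβ
  rw [hv, hc, mul_pow, mul_comm, mul_smul, show ((2 : ℤ) ^ n) = ((2 ^ n : ℕ) : ℤ) by push_cast; rfl,
    hv2, smul_zero]

/-- The line: `(σ - χ σ)(F - α)` kills the classes of the system. -/
theorem inertia_smul_frobenius_sub {F : GQ} (hF : A.IsFrobeniusAt F 2)
    (hFX : ∀ x ∈ X, F • x ∈ X) {a α : ℤ}
    (hT : ∀ x ∈ X, heckeOperatorBar L ⟨2, Nat.prime_two⟩ x = a • x)
    (hα : ((2 ^ n : ℕ) : ℤ) ∣ α * α - a * α + 2) (hβ : (2 : ℤ) ∣ a - α)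
    {σ : GQ} (hσ : σ ∈ A.inertiaSubgroupIn ℚ) {c : ℕ}
    (hc : ∀ z : QBar, z ^ (2 ^ n) = 1 → σ z = z ^ c) {x : JZero L} (hx : x ∈ X) :
    σ • (F • x - α • x) = c • (F • x - α • x) :=
  inertia_smul_of_red_eq_zero hA hL X hn hst hunip hσ hc (X.sub_mem (hFX x hx) (X.zsmul_mem hx α))
    (red_frobenius_sub hA hL X hn hF hFX hT hα hβ hx)

end Fermat.Agent.TwoAdic.LocalTwo
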